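import Mathlib

set_option autoImplicit false

/-!
# S27, package D8: the abstract counting lemma

`J` an abelian group with an endomorphism `σ` ("Frobenius") such that
* the fixed groups `J_m = ker (σ^m - 1)` are finite and exhaust `J`,
* the norm `1 + σ^m + ... + σ^(m(ℓ-1)) : J_(mℓ) → J_m` is surjective for every `m ≥ 1`,
* `v_ℓ (#J_(mℓ)) = v_ℓ (#J_m) + 2g` for all `m` divisible by some `n₀`.

Then `#J[ℓ^j] = ℓ^(2gj)` for all `j`.
-/

namespace Fermat.Agent.S27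

variable {J : Type*} [AddCommGroup J]

/-- the subgroup of points fixed by `σ^m`. -/
def fixedPow (σ : AddMonoid.End J) (m : ℕ) : AddSubgroup J where
  carrier := {x | (σ ^ m) x = x}
  zero_mem' := map_zero _
  add_mem' := by
    intro a b ha hb
    show (σ ^ m) (a + b) = a + b
    rw [map_add, ha, hb]
  neg_mem' := by
    intro a ha
    show (σ ^ m) (-a) = -a
    rw [map_neg, ha]

theorem mem_fixedPow {σ : AddMonoid.End J} {m : ℕ} {x : J} :
    x ∈ fixedPow σ m ↔ (σ ^ m) x = x := Iff.rfl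

/-- the norm `1 + σ^m + ... + σ^(m(ℓ-1))`. -/
def normPow (σ : AddMonoid.End J) (m ℓ : ℕ) : AddMonoid.End J :=
  ∑ u ∈ Finset.range ℓ, (σ ^ m) ^ u

/-- the `n`-torsion subgroup. -/
def tors (J : Type*) [AddCommGroup J] (n : ℕ) : AddSubgroup J where
  carrier := {x | n • x = 0}
  zero_mem' := smul_zero _
  add_mem' := by
    intro a b ha hb
    show n • (a + b) = 0
    rw [smul_add, ha, hb, add_zero]
  neg_mem' := by
    intro a ha
    show n • (-a) = 0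
    rw [smul_neg, ha, neg_zero]

theorem mem_tors {n : ℕ} {x : J} : x ∈ tors J n ↔ n • x = 0 := Iff.rfl

/-- The hypotheses of the abstract counting lemma. -/
structure FrobCount (σ : AddMonoid.End J) (ℓ g : ℕ) : Prop where
  finite : ∀ m : ℕ, 0 < m → (fixedPow σ m : Set J).Finite
  exhaust : ∀ x : J, ∃ m : ℕ, 0 < m ∧ x ∈ fixedPow σ m
  norm_surj : ∀ m : ℕ, 0 < m → ∀ x ∈ fixedPow σ m, ∃ y ∈ fixedPow σ (m * ℓ), normPow σ m ℓ y = x
  growth : ∃ n₀ : ℕ, 0 < n₀ ∧ ∀ m : ℕ, 0 < m → n₀ ∣ m →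
    padicValNat ℓ (Nat.card (fixedPow σ (m * ℓ))) = padicValNat ℓ (Nat.card (fixedPow σ m)) + 2 * g

/-! ## Generic lemmas on finite abelian groups -/

section generic

variable {A : Type*} [AddCommGroup A] {B : Type*} [AddCommGroup B]

/-- `#H = #(H ∩ ker f) * #f(H)`. -/
theorem FC.card_eq_inf_ker_mul_map (H : AddSubgroup A) (f : A →+ B) :
    Nat.card H = Nat.card ↥(H ⊓ f.ker) * Nat.card ↥(H.map f) := by
  have h1 := AddSubgroup.card_mul_index (f.domRestrict H).ker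
  rw [AddSubgroup.index_ker, AddMonoidHom.domRestrict_range, AddMonoidHom.ker_domRestrict] at h1
  have h2 : Nat.card ↥(f.ker.addSubgroupOf H) = Nat.card ↥(H ⊓ f.ker) := by
    rw [← AddSubgroup.inf_addSubgroupOf_right f.ker H, inf_comm]
    exact Nat.card_congr (AddSubgroup.addSubgroupOfEquivOfLe inf_le_left).toEquiv
  rw [h2] at h1
  exact h1.symm

/-- the `ℓ`-primary part. -/
def primPart (J : Type*) [AddCommGroup J] (ℓ : ℕ) : AddSubgroup J where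
  carrier := {x | ∃ k : ℕ, ℓ ^ k • x = 0}
  zero_mem' := ⟨0, smul_zero _⟩
  add_mem' := by
    rintro a b ⟨k, hk⟩ ⟨k', hk'⟩
    refine ⟨k + k', ?_⟩
    have h1 : ℓ ^ (k + k') • a = 0 := by
      rw [pow_add, mul_comm, mul_smul, hk, smul_zero]
    have h2 : ℓ ^ (k + k') • b = 0 := by
      rw [pow_add, mul_smul, hk', smul_zero]
    show ℓ ^ (k + k') • (a + b) = 0
    rw [smul_add, h1, h2, add_zero]
  neg_mem' := by
    rintro a ⟨k, hk⟩
    exact ⟨k, by show ℓ ^ k • (-a) = 0; rw [smul_neg, hk, neg_zero]⟩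

theorem mem_primPart {J : Type*} [AddCommGroup J] {ℓ : ℕ} {x : J} :
    x ∈ primPart J ℓ ↔ ∃ k : ℕ, ℓ ^ k • x = 0 := Iff.rfl

theorem tors_le_primPart (J : Type*) [AddCommGroup J] (ℓ j : ℕ) : tors J (ℓ ^ j) ≤ primPart J ℓ :=
  fun _ hx => ⟨j, hx⟩

/-- `n •` as an endomorphism. -/
def FC.mulBy (J : Type*) [AddCommGroup J] (n : ℕ) : J →+ J := nsmulAddMonoidHom n

@[simp] theorem FC.mulBy_apply {J : Type*} [AddCommGroup J] (n : ℕ) (x : J) :
    FC.mulBy J n x = n • x := rfl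

theorem FC.ker_mulBy (J : Type*) [AddCommGroup J] (n : ℕ) : (FC.mulBy J n).ker = tors J n := by
  ext x
  rw [AddMonoidHom.mem_ker, FC.mulBy_apply, mem_tors]

/-- a finite subgroup killed by a power of `ℓ` has `ℓ`-power order. -/
theorem FC.card_eq_pow_of_le_tors {ℓ : ℕ} (hℓ : ℓ.Prime) (H : AddSubgroup A) [Finite H] {a : ℕ}
    (hH : H ≤ tors A (ℓ ^ a)) : ∃ b : ℕ, Nat.card H = ℓ ^ b := by
  refine ⟨_, Nat.eq_prime_pow_of_unique_prime_dvd Nat.card_pos.ne' ?_⟩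
  intro q hq hdvd
  have := Fact.mk hq
  obtain ⟨x, hx⟩ := exists_prime_addOrderOf_dvd_card' q hdvd
  have h1 : ℓ ^ a • (x : A) = 0 := hH x.2
  have h2 : addOrderOf (x : A) ∣ ℓ ^ a := addOrderOf_dvd_of_nsmul_eq_zero h1
  rw [AddSubgroup.addOrderOf_coe, hx] at h2
  exact (Nat.prime_dvd_prime_iff_eq hq hℓ).1 (hq.dvd_of_dvd_pow h2)

/-- **Sylow count without Sylow**: the `ℓ`-primary part of a finite abelian group `H` has order
`ℓ ^ v_ℓ(#H)`. -/
theorem FC.card_inf_primPart {ℓ : ℕ} (hℓ : ℓ.Prime) (H : AddSubgroup A) [Finite H] :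
    Nat.card ↥(H ⊓ primPart A ℓ) = ℓ ^ padicValNat ℓ (Nat.card H) := by
  have := Fact.mk hℓ
  set a := padicValNat ℓ (Nat.card H) with ha
  have hne : Nat.card H ≠ 0 := Nat.card_pos.ne'
  -- the primary part of `H` is killed by `ℓ ^ a`
  have hkill : H ⊓ primPart A ℓ = H ⊓ (FC.mulBy A (ℓ ^ a)).ker := by
    rw [FC.ker_mulBy]
    apply le_antisymm
    · rintro x ⟨hxH, k, hk⟩
      refine ⟨hxH, ?_⟩
      have h1 : addOrderOf x ∣ ℓ ^ k := addOrderOf_dvd_of_nsmul_eq_zero hk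
      obtain ⟨i, -, hi⟩ := (Nat.dvd_prime_pow hℓ).1 h1
      have h2 : addOrderOf (⟨x, hxH⟩ : H) ∣ Nat.card H := addOrderOf_dvd_natCard _
      rw [← AddSubgroup.addOrderOf_coe, hi] at h2
      have h3 : i ≤ a := (padicValNat_dvd_iff_le hne).1 h2
      have h4 : ℓ ^ i • x = 0 := by rw [← hi]; exact addOrderOf_nsmul_eq_zero x
      show ℓ ^ a • x = 0
      obtain ⟨c, hc⟩ := Nat.exists_eq_add_of_le h3
      rw [hc, pow_add, mul_comm, mul_smul, h4, smul_zero]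
    · exact inf_le_inf_left H (tors_le_primPart A ℓ a)
  have hcard := FC.card_eq_inf_ker_mul_map H (FC.mulBy A (ℓ ^ a))
  rw [← hkill] at hcard
  -- the image has order prime to `ℓ`
  have himg : ¬ ℓ ∣ Nat.card ↥(H.map (FC.mulBy A (ℓ ^ a))) := by
    intro hdvd
    have : Finite ↥(H.map (FC.mulBy A (ℓ ^ a))) := by
      have : (H.map (FC.mulBy A (ℓ ^ a)) : Set A).Finite := by
        rw [AddSubgroup.coe_map]
        exact (Set.toFinite (H : Set A)).image _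
      exact this.to_subtype
    obtain ⟨y, hy⟩ := exists_prime_addOrderOf_dvd_card' ℓ hdvd
    obtain ⟨x, hxH, hxy⟩ := y.2
    have h1 : ℓ • (y : A) = 0 := by
      have := addOrderOf_nsmul_eq_zero (y : A)
      rwa [AddSubgroup.addOrderOf_coe, hy] at this
    have h2 : x ∈ H ⊓ primPart A ℓ := by
      refine ⟨hxH, a + 1, ?_⟩
      rw [pow_succ, mul_comm, mul_smul]
      rw [← hxy, FC.mulBy_apply] at h1
      exact h1
    rw [hkill] at h2
    have h3 : (y : A) = 0 := by rw [← hxy]; exact h2.2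
    have h4 : addOrderOf (y : A) = 1 := by rw [h3]; exact addOrderOf_zero
    rw [AddSubgroup.addOrderOf_coe, hy] at h4
    exact hℓ.one_lt.ne' h4
  -- the primary part has `ℓ`-power order
  have : Finite ↥(H ⊓ primPart A ℓ) :=
    Finite.of_injective (AddSubgroup.inclusion (inf_le_left : H ⊓ primPart A ℓ ≤ H))
      (AddSubgroup.inclusion_injective _)
  obtain ⟨b, hb⟩ := FC.card_eq_pow_of_le_tors hℓ (H ⊓ primPart A ℓ) (a := a) (by
    rw [hkill, FC.ker_mulBy]; exact inf_le_right)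
  have h5 : a = b := by
    have h6 : padicValNat ℓ (Nat.card H) = padicValNat ℓ (Nat.card ↥(H ⊓ primPart A ℓ)) +
        padicValNat ℓ (Nat.card ↥(H.map (FC.mulBy A (ℓ ^ a)))) := by
      conv_lhs => rw [hcard]
      refine padicValNat.mul ?_ ?_
      · rw [hb]; exact pow_ne_zero _ hℓ.ne_zero
      · intro h0; rw [h0] at himg; exact himg (dvd_zero _)
    rw [hb, padicValNat.prime_pow, padicValNat.eq_zero_of_not_dvd himg, add_zero] at h6
    exact h6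
  rw [hb, h5]

end generic

/-! ## Frobenius: fixed points and the norm -/

section frob

variable {J : Type*} [AddCommGroup J]

theorem FC.pow_apply_of_fixed (s : AddMonoid.End J) {x : J} (hx : s x = x) (c : ℕ) :
    (s ^ c) x = x := by
  induction c with
  | zero => rfl
  | succ c ih =>
    rw [pow_succ]
    show (s ^ c) (s x) = x
    rw [hx, ih]

theorem fixedPow_le_of_dvd (σ : AddMonoid.End J) {a b : ℕ} (hab : a ∣ b) :
    fixedPow σ a ≤ fixedPow σ b := by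
  obtain ⟨c, rfl⟩ := hab
  intro x hx
  rw [mem_fixedPow] at hx ⊢
  rw [pow_mul]
  exact FC.pow_apply_of_fixed _ hx c

theorem normPow_apply (σ : AddMonoid.End J) (m ℓ : ℕ) (x : J) :
    normPow σ m ℓ x = ∑ u ∈ Finset.range ℓ, ((σ ^ m) ^ u) x := by
  unfold normPow
  exact AddMonoidHom.finsetSum_apply _ _ _

/-- on `J_m` the norm is multiplication by `ℓ`. -/
theorem normPow_apply_of_fixed (σ : AddMonoid.End J) {m : ℕ} (ℓ : ℕ) {x : J}
    (hx : x ∈ fixedPow σ m) : normPow σ m ℓ x = ℓ • x := by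
  rw [normPow_apply]
  rw [Finset.sum_congr rfl (fun u _ => FC.pow_apply_of_fixed (σ ^ m) hx u)]
  rw [Finset.sum_const, Finset.card_range]

/-- `(s - 1) ν = s^ℓ - 1`. -/
theorem FC.sub_one_mul_normPow (σ : AddMonoid.End J) (m ℓ : ℕ) :
    (σ ^ m - 1) * normPow σ m ℓ = σ ^ (m * ℓ) - 1 := by
  unfold normPow
  rw [mul_geom_sum, pow_mul]

/-- `ν (s - 1) = s^ℓ - 1`. -/
theorem FC.normPow_mul_sub_one (σ : AddMonoid.End J) (m ℓ : ℕ) :
    normPow σ m ℓ * (σ ^ m - 1) = σ ^ (m * ℓ) - 1 := by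
  unfold normPow
  rw [geom_sum_mul, pow_mul]

/-- the norm maps `J_(mℓ)` into `J_m`. -/
theorem normPow_mem_fixedPow (σ : AddMonoid.End J) {m ℓ : ℕ} {y : J}
    (hy : y ∈ fixedPow σ (m * ℓ)) : normPow σ m ℓ y ∈ fixedPow σ m := by
  have h1 : ((σ ^ m - 1) * normPow σ m ℓ) y = (σ ^ (m * ℓ) - 1) y := by
    rw [FC.sub_one_mul_normPow]
  have h2 : ((σ ^ m - 1) * normPow σ m ℓ) y = (σ ^ m) (normPow σ m ℓ y) - normPow σ m ℓ y := rfl
  have h3 : (σ ^ (m * ℓ) - 1) y = (σ ^ (m * ℓ)) y - y := rfl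
  rw [h2, h3, mem_fixedPow.1 hy, sub_self, sub_eq_zero] at h1
  exact h1

/-- `(s - 1) y` is in the kernel of the norm for `y ∈ J_(mℓ)`. -/
theorem normPow_sub_apply (σ : AddMonoid.End J) {m ℓ : ℕ} {y : J}
    (hy : y ∈ fixedPow σ (m * ℓ)) : normPow σ m ℓ ((σ ^ m) y - y) = 0 := by
  have h1 : (normPow σ m ℓ * (σ ^ m - 1)) y = (σ ^ (m * ℓ) - 1) y := by
    rw [FC.normPow_mul_sub_one]
  have h2 : (normPow σ m ℓ * (σ ^ m - 1)) y = normPow σ m ℓ ((σ ^ m) y - y) := rfl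
  have h3 : (σ ^ (m * ℓ) - 1) y = (σ ^ (m * ℓ)) y - y := rfl
  rw [h2, h3, mem_fixedPow.1 hy, sub_self] at h1
  exact h1

theorem FC.apply_mem_fixedPow (σ : AddMonoid.End J) (a b : ℕ) {y : J}
    (hy : y ∈ fixedPow σ b) : (σ ^ a) y ∈ fixedPow σ b := by
  rw [mem_fixedPow] at hy ⊢
  have : (σ ^ b) ((σ ^ a) y) = (σ ^ a) ((σ ^ b) y) := by
    show (σ ^ b * σ ^ a) y = (σ ^ a * σ ^ b) y
    rw [← pow_add, ← pow_add, add_comm]
  rw [this, hy]

/-- the kernel of the norm on `J_(mℓ)`. -/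
def normKer (σ : AddMonoid.End J) (m ℓ : ℕ) : AddSubgroup J :=
  fixedPow σ (m * ℓ) ⊓ (normPow σ m ℓ).ker

theorem mem_normKer {σ : AddMonoid.End J} {m ℓ : ℕ} {x : J} :
    x ∈ normKer σ m ℓ ↔ x ∈ fixedPow σ (m * ℓ) ∧ normPow σ m ℓ x = 0 := Iff.rfl

end frob

/-! ## The count -/

namespace FrobCount

variable {J : Type*} [AddCommGroup J] {σ : AddMonoid.End J} {ℓ g : ℕ}

theorem finite_fixedPow (h : FrobCount σ ℓ g) {m : ℕ} (hm : 0 < m) : Finite (fixedPow σ m) :=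
  (h.finite m hm).to_subtype

theorem map_normPow (h : FrobCount σ ℓ g) {m : ℕ} (hm : 0 < m) :
    (fixedPow σ (m * ℓ)).map (normPow σ m ℓ) = fixedPow σ m := by
  apply le_antisymm
  · rintro x ⟨y, hy, rfl⟩
    exact normPow_mem_fixedPow σ hy
  · intro x hx
    obtain ⟨y, hy, hyx⟩ := h.norm_surj m hm x hx
    exact ⟨y, hy, hyx⟩

theorem card_fixedPow_mul (h : FrobCount σ ℓ g) {m : ℕ} (hm : 0 < m) :
    Nat.card (fixedPow σ (m * ℓ)) = Nat.card (normKer σ m ℓ) * Nat.card (fixedPow σ m) := by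
  have h1 := FC.card_eq_inf_ker_mul_map (fixedPow σ (m * ℓ)) (normPow σ m ℓ)
  rw [h.map_normPow hm] at h1
  exact h1

theorem finite_normKer (h : FrobCount σ ℓ g) (hℓ : ℓ.Prime) {m : ℕ} (hm : 0 < m) :
    Finite (normKer σ m ℓ) := by
  have := h.finite_fixedPow (Nat.mul_pos hm hℓ.pos)
  exact Finite.of_injective
    (AddSubgroup.inclusion (inf_le_left : normKer σ m ℓ ≤ fixedPow σ (m * ℓ)))
    (AddSubgroup.inclusion_injective _)

/-- `v_ℓ (# ker ν) = 2g`. -/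
theorem padicValNat_card_normKer (h : FrobCount σ ℓ g) (hℓ : ℓ.Prime) {n₀ : ℕ}
    (hgrow : ∀ m : ℕ, 0 < m → n₀ ∣ m →
      padicValNat ℓ (Nat.card (fixedPow σ (m * ℓ))) = padicValNat ℓ (Nat.card (fixedPow σ m)) + 2 * g)
    {m : ℕ} (hm : 0 < m) (hdvd : n₀ ∣ m) :
    padicValNat ℓ (Nat.card (normKer σ m ℓ)) = 2 * g := by
  have := Fact.mk hℓ
  have h1 := hgrow m hm hdvd
  have := h.finite_fixedPow hm
  have := h.finite_normKer hℓ hm
  rw [h.card_fixedPow_mul hm, padicValNat.mul Nat.card_pos.ne' Nat.card_pos.ne'] at h1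
  omega

/-- the `ℓ`-primary part of `ker ν` has order `ℓ^(2g)`. -/
theorem card_normKer_inf_primPart (h : FrobCount σ ℓ g) (hℓ : ℓ.Prime) {n₀ : ℕ}
    (hgrow : ∀ m : ℕ, 0 < m → n₀ ∣ m →
      padicValNat ℓ (Nat.card (fixedPow σ (m * ℓ))) = padicValNat ℓ (Nat.card (fixedPow σ m)) + 2 * g)
    {m : ℕ} (hm : 0 < m) (hdvd : n₀ ∣ m) :
    Nat.card ↥(normKer σ m ℓ ⊓ primPart J ℓ) = ℓ ^ (2 * g) := by
  have := h.finite_normKer hℓ hm
  rw [FC.card_inf_primPart hℓ, h.padicValNat_card_normKer hℓ hgrow hm hdvd]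

/-- `J_m[ℓ] ⊆ (ker ν)_ℓ`. -/
theorem tors_inf_fixedPow_le (σ : AddMonoid.End J) (ℓ m : ℕ) :
    tors J ℓ ⊓ fixedPow σ m ≤ normKer σ m ℓ ⊓ primPart J ℓ := by
  rintro x ⟨hx1, hx2⟩
  refine ⟨⟨fixedPow_le_of_dvd σ (dvd_mul_right m ℓ) hx2, ?_⟩, 1, ?_⟩
  · show normPow σ m ℓ x = 0
    rw [normPow_apply_of_fixed σ ℓ hx2]
    exact hx1
  · rw [pow_one]; exact hx1

/-- finitely many elements lie in a common `J_m`, `n ∣ m`. -/
theorem exists_level_finset (h : FrobCount σ ℓ g) (S : Finset J) {n : ℕ} (hn : 0 < n) :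
    ∃ m : ℕ, 0 < m ∧ n ∣ m ∧ ∀ x ∈ S, x ∈ fixedPow σ m := by
  classical
  induction S using Finset.induction_on with
  | empty => exact ⟨n, hn, dvd_rfl, by simp⟩
  | insert a S _ ih =>
    obtain ⟨m, hm, hnm, hS⟩ := ih
    obtain ⟨m', hm', ha⟩ := h.exhaust a
    refine ⟨m * m', Nat.mul_pos hm hm', hnm.mul_right m', ?_⟩
    intro x hx
    rcases Finset.mem_insert.1 hx with rfl | hx
    · exact fixedPow_le_of_dvd σ (dvd_mul_left m' m) ha
    · exact fixedPow_le_of_dvd σ (dvd_mul_right m m') (hS x hx)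

/-- upper bound: `J[ℓ]` is finite of order at most `ℓ^(2g)`. -/
theorem finite_tors_one (h : FrobCount σ ℓ g) (hℓ : ℓ.Prime) :
    (tors J ℓ : Set J).Finite := by
  obtain ⟨n₀, hn₀, hgrow⟩ := h.growth
  by_contra hinf
  obtain ⟨S, hS, hcard⟩ := Set.Infinite.exists_subset_card_eq hinf (ℓ ^ (2 * g) + 1)
  obtain ⟨m, hm, hdvd, hSm⟩ := h.exists_level_finset S hn₀
  have := h.finite_normKer hℓ hm
  have hfin : Finite ↥(normKer σ m ℓ ⊓ primPart J ℓ) :=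
    Finite.of_injective
      (AddSubgroup.inclusion (inf_le_left : normKer σ m ℓ ⊓ primPart J ℓ ≤ normKer σ m ℓ))
      (AddSubgroup.inclusion_injective _)
  have h1 : (S : Set J) ⊆ (normKer σ m ℓ ⊓ primPart J ℓ : AddSubgroup J) := by
    intro x hx
    exact tors_inf_fixedPow_le σ ℓ m ⟨hS hx, hSm x hx⟩
  have h2 : S.card ≤ Nat.card ↥(normKer σ m ℓ ⊓ primPart J ℓ) := by
    have h3 : Nat.card (S : Set J) ≤ Nat.card ((normKer σ m ℓ ⊓ primPart J ℓ : AddSubgroup J) : Set J) :=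
      Nat.card_mono (Set.toFinite _) h1
    rw [Nat.card_coe_set_eq, Set.ncard_coe_finset] at h3
    exact h3
  rw [h.card_normKer_inf_primPart hℓ hgrow hm hdvd, hcard] at h2
  omega

theorem finite_tors (h : FrobCount σ ℓ g) (hℓ : ℓ.Prime) (j : ℕ) :
    (tors J (ℓ ^ j) : Set J).Finite := by
  induction j with
  | zero =>
    have : (tors J (ℓ ^ 0) : Set J) = {0} := by
      ext x
      simp [mem_tors]
    rw [this]
    exact Set.finite_singleton 0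
  | succ j ih =>
    have h1 : (tors J (ℓ ^ (j + 1)) : Set J) = (fun x : J => ℓ • x) ⁻¹' (tors J (ℓ ^ j) : Set J) := by
      ext x
      show ℓ ^ (j + 1) • x = 0 ↔ ℓ ^ j • (ℓ • x) = 0
      rw [pow_succ, mul_smul]
    rw [h1]
    refine ih.preimage' ?_
    intro b _
    by_cases hb : ∃ x₀ : J, ℓ • x₀ = b
    · obtain ⟨x₀, rfl⟩ := hb
      have h2 : (fun x : J => ℓ • x) ⁻¹' {ℓ • x₀} = (fun y : J => y + x₀) '' (tors J ℓ : Set J) := by
        ext x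
        constructor
        · intro hx
          refine ⟨x - x₀, ?_, by simp⟩
          show ℓ • (x - x₀) = 0
          rw [smul_sub, sub_eq_zero]
          exact hx
        · rintro ⟨y, hy, rfl⟩
          show ℓ • (y + x₀) = ℓ • x₀
          rw [smul_add, (hy : ℓ • y = 0), zero_add]
      rw [h2]
      exact (h.finite_tors_one hℓ).image _
    · have h2 : (fun x : J => ℓ • x) ⁻¹' {b} = ∅ := by
        ext x
        simp only [Set.mem_preimage, Set.mem_singleton_iff, Set.mem_empty_iff_false, iff_false]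
        intro hx
        exact hb ⟨x, hx⟩
      rw [h2]
      exact Set.finite_empty

/-- a level `n` (multiple of `n₀`) such that `σ^n` fixes `J[ℓ²]`. -/
theorem exists_level (h : FrobCount σ ℓ g) (hℓ : ℓ.Prime) {n₀ : ℕ} (hn₀ : 0 < n₀) :
    ∃ n : ℕ, 0 < n ∧ n₀ ∣ n ∧ tors J (ℓ ^ 2) ≤ fixedPow σ n := by
  obtain ⟨n, hn, hdvd, hS⟩ := h.exists_level_finset (h.finite_tors hℓ 2).toFinset hn₀
  refine ⟨n, hn, hdvd, fun x hx => hS x ?_⟩
  rw [Set.Finite.mem_toFinset]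
  exact hx

/-- if `σ^m` fixes `J[ℓ²]`, the `ℓ`-primary part of `ker ν` is `J[ℓ]`. -/
theorem normKer_inf_primPart_eq {m : ℕ}
    (hm : tors J (ℓ ^ 2) ≤ fixedPow σ m) :
    normKer σ m ℓ ⊓ primPart J ℓ = tors J ℓ := by
  have h1 : tors J ℓ ≤ fixedPow σ m := by
    intro x hx
    apply hm
    show ℓ ^ 2 • x = 0
    rw [pow_two, mul_smul, (hx : ℓ • x = 0), smul_zero]
  apply le_antisymm
  · rintro x ⟨⟨-, hx2⟩, k, hk⟩
    -- minimal exponent
    by_contra hx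
    have hx' : ¬ ℓ ^ 1 • x = 0 := by rwa [pow_one]
    -- find `e ≥ 1` with `ℓ^e x ≠ 0`, `ℓ^(e+1) x = 0`
    have hex : ∃ e : ℕ, ℓ ^ (e + 1) • x ≠ 0 ∧ ℓ ^ (e + 2) • x = 0 := by
      induction k with
      | zero =>
        exfalso
        rw [pow_zero, one_smul] at hk
        exact hx (by rw [hk]; exact (tors J ℓ).zero_mem)
      | succ k ih =>
        by_cases hk' : ℓ ^ k • x = 0
        · exact ih hk'
        · cases k with
          | zero => exact absurd hk hx'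
          | succ k => exact ⟨k, hk', hk⟩
    obtain ⟨e, he1, he2⟩ := hex
    have hz : ℓ ^ e • x ∈ tors J (ℓ ^ 2) := by
      show ℓ ^ 2 • ℓ ^ e • x = 0
      rw [← mul_smul, ← pow_add, add_comm]
      exact he2
    have hz' := hm hz
    have h2 : normPow σ m ℓ (ℓ ^ e • x) = ℓ • (ℓ ^ e • x) := normPow_apply_of_fixed σ ℓ hz'
    have hx2' : normPow σ m ℓ x = 0 := hx2
    have h3 : normPow σ m ℓ (ℓ ^ e • x) = ℓ ^ e • normPow σ m ℓ x := map_nsmul _ _ _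
    rw [h3, hx2', smul_zero, ← mul_smul, ← pow_succ'] at h2
    exact he1 h2.symm
  · intro x hx
    exact tors_inf_fixedPow_le σ ℓ m ⟨hx, h1 hx⟩

theorem card_tors_one (h : FrobCount σ ℓ g) (hℓ : ℓ.Prime) :
    Nat.card (tors J ℓ) = ℓ ^ (2 * g) := by
  obtain ⟨n₀, hn₀, hgrow⟩ := h.growth
  obtain ⟨n, hn, hdvd, hfix⟩ := h.exists_level hℓ hn₀
  rw [← h.card_normKer_inf_primPart hℓ hgrow hn hdvd, normKer_inf_primPart_eq hfix]

end FrobCount

namespace FrobCount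

variable {J : Type*} [AddCommGroup J] {σ : AddMonoid.End J} {ℓ g : ℕ}

theorem tors_one_le_primPart (J : Type*) [AddCommGroup J] (ℓ : ℕ) : tors J ℓ ≤ primPart J ℓ :=
  fun x hx => ⟨1, by rw [pow_one]; exact hx⟩

theorem apply_mem_primPart (s : AddMonoid.End J) {ℓ : ℕ} {y : J} (hy : y ∈ primPart J ℓ) :
    s y ∈ primPart J ℓ := by
  obtain ⟨k, hk⟩ := hy
  refine ⟨k, ?_⟩
  have h1 : s (ℓ ^ k • y) = ℓ ^ k • s y := map_nsmul _ _ _
  rw [← h1, hk, map_zero]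

/-- **divisibility** of the `ℓ`-primary part. -/
theorem exists_smul_eq (h : FrobCount σ ℓ g) (hℓ : ℓ.Prime) {x : J} (hx : x ∈ primPart J ℓ) :
    ∃ y : J, y ∈ primPart J ℓ ∧ ℓ • y = x := by
  have hFact := Fact.mk hℓ
  obtain ⟨n₀, hn₀, hgrow⟩ := h.growth
  obtain ⟨n, hn, hdvd, hfix⟩ := h.exists_level hℓ hn₀
  obtain ⟨m', hm', hxm'⟩ := h.exhaust x
  set m := n * m' with hmdef
  have hm : 0 < m := Nat.mul_pos hn hm'
  have hdvdm : n₀ ∣ m := hdvd.mul_right m'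
  have hfixm : tors J (ℓ ^ 2) ≤ fixedPow σ m :=
    hfix.trans (fixedPow_le_of_dvd σ (dvd_mul_right n m'))
  have hxm : x ∈ fixedPow σ m := fixedPow_le_of_dvd σ (dvd_mul_left m' n) hxm'
  have hfin0 := h.finite_fixedPow hm
  have hfin1 := h.finite_fixedPow (Nat.mul_pos hm hℓ.pos)
  have hc0 := FC.card_inf_primPart hℓ (fixedPow σ m)
  have hc1 := FC.card_inf_primPart hℓ (fixedPow σ (m * ℓ))
  rw [hgrow m hm hdvdm] at hc1
  have hker := normKer_inf_primPart_eq hfixm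
  have htors_le : tors J ℓ ≤ fixedPow σ (m * ℓ) ⊓ primPart J ℓ := by
    intro z hz
    have hz2 : z ∈ tors J (ℓ ^ 2) := by
      show ℓ ^ 2 • z = 0
      rw [pow_two, mul_smul, (hz : ℓ • z = 0), smul_zero]
    exact ⟨fixedPow_le_of_dvd σ (dvd_mul_right m ℓ) (hfixm hz2), tors_one_le_primPart J ℓ hz⟩
  have hsplit := FC.card_eq_inf_ker_mul_map (fixedPow σ (m * ℓ) ⊓ primPart J ℓ) (FC.mulBy J ℓ)
  rw [FC.ker_mulBy, inf_eq_right.2 htors_le, h.card_tors_one hℓ, hc1, pow_add, mul_comm] at hsplit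
  have hcard_map : Nat.card ↥((fixedPow σ (m * ℓ) ⊓ primPart J ℓ).map (FC.mulBy J ℓ)) =
      Nat.card ↥(fixedPow σ m ⊓ primPart J ℓ) := by
    rw [hc0]
    exact (Nat.eq_of_mul_eq_mul_left (pow_pos hℓ.pos (2 * g)) hsplit).symm
  have hle : (fixedPow σ (m * ℓ) ⊓ primPart J ℓ).map (FC.mulBy J ℓ) ≤
      fixedPow σ m ⊓ primPart J ℓ := by
    rintro _ ⟨y, ⟨hy1, hy2⟩, rfl⟩
    have hz : (σ ^ m) y - y ∈ normKer σ m ℓ ⊓ primPart J ℓ := by
      have hy1' : y ∈ fixedPow σ (m * ℓ) := hy1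
      have hy2' : y ∈ primPart J ℓ := hy2
      refine AddSubgroup.mem_inf.2 ⟨mem_normKer.2
        ⟨sub_mem (FC.apply_mem_fixedPow σ m (m * ℓ) hy1') hy1', ?_⟩,
        sub_mem (apply_mem_primPart _ hy2') hy2'⟩
      exact normPow_sub_apply σ hy1'
    rw [hker] at hz
    have hz' : ℓ • ((σ ^ m) y - y) = 0 := hz
    rw [smul_sub, sub_eq_zero] at hz'
    refine ⟨?_, ?_⟩
    · show (σ ^ m) (ℓ • y) = ℓ • y
      have h1 : (σ ^ m) (ℓ • y) = ℓ • (σ ^ m) y := map_nsmul _ _ _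
      rw [h1, hz']
    · exact (primPart J ℓ).nsmul_mem hy2 ℓ
  have hfin0' : Finite ↥(fixedPow σ m ⊓ primPart J ℓ) :=
    Finite.of_injective
      (AddSubgroup.inclusion (inf_le_left : fixedPow σ m ⊓ primPart J ℓ ≤ fixedPow σ m))
      (AddSubgroup.inclusion_injective _)
  have heq := AddSubgroup.eq_of_le_of_card_ge hle hcard_map.ge
  have hx0 : x ∈ fixedPow σ m ⊓ primPart J ℓ := ⟨hxm, hx⟩
  rw [← heq] at hx0
  obtain ⟨y, ⟨-, hy2⟩, hyx⟩ := hx0
  exact ⟨y, hy2, hyx⟩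

theorem card_tors_succ (h : FrobCount σ ℓ g) (hℓ : ℓ.Prime) (j : ℕ) :
    Nat.card (tors J (ℓ ^ (j + 1))) = ℓ ^ (2 * g) * Nat.card (tors J (ℓ ^ j)) := by
  have hsplit := FC.card_eq_inf_ker_mul_map (tors J (ℓ ^ (j + 1))) (FC.mulBy J ℓ)
  have h1 : tors J ℓ ≤ tors J (ℓ ^ (j + 1)) := by
    intro z hz
    show ℓ ^ (j + 1) • z = 0
    rw [pow_succ, mul_smul, (hz : ℓ • z = 0), smul_zero]
  have h2 : (tors J (ℓ ^ (j + 1))).map (FC.mulBy J ℓ) = tors J (ℓ ^ j) := by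
    apply le_antisymm
    · rintro _ ⟨y, hy, rfl⟩
      show ℓ ^ j • (ℓ • y) = 0
      rw [← mul_smul, ← pow_succ]
      exact hy
    · intro x hx
      obtain ⟨y, -, hyx⟩ := h.exists_smul_eq hℓ (tors_le_primPart J ℓ j hx)
      refine ⟨y, ?_, hyx⟩
      show ℓ ^ (j + 1) • y = 0
      rw [pow_succ, mul_smul, hyx]
      exact hx
  rw [FC.ker_mulBy, inf_eq_right.2 h1, h2, h.card_tors_one hℓ] at hsplit
  exact hsplit

end FrobCount

/-- **D8 (abstract counting lemma).**  OWNER: helper44.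
Proof sketch (orders only, works for `ℓ = 2`):
(a) for `n₀ ∣ m`: `ν = normPow σ m ℓ : J_(mℓ) → J_m` is onto, so `#ker ν = #J_(mℓ) / #J_m`, and the `ℓ`-part of
    `ker ν` has order `ℓ^(2g)` (Sylow); `J_m[ℓ] ⊆ ker ν` (`ν x = ℓ • x` on `J_m`): `#J[ℓ] ≤ ℓ^(2g)`, all `J[ℓ^j]` finite.
(b) choose `n` with `n₀ ∣ n` and `J[ℓ²] ⊆ J_n`.  If `y ∈ ker ν` has order `ℓ^r`, `r ≥ 2`, then `z = ℓ^(r-2) • y ∈ J[ℓ²] ⊆ J_n`,
    so `0 = ν z = ℓ • z ≠ 0`: contradiction.  Hence `(ker ν)_ℓ = J[ℓ]` and `#J[ℓ] = ℓ^(2g)`; same at every level `n ℓ^i`.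
(c) `G_i` := `ℓ`-part of `J_(n ℓ^i)`, `s = σ^(n ℓ^i)`.  For `y ∈ G_(i+1)`: `ν ((s - 1) y) = (s^ℓ - 1) y = 0`, so
    `(s - 1) y ∈ (ker ν)_ℓ = J[ℓ]`, so `ℓ • y ∈ G_i`.  `ℓ : G_(i+1) → G_i` has kernel `J[ℓ]` of order
    `ℓ^(2g) = #G_(i+1) / #G_i`: onto.  So `D = ⋃ G_i` is `ℓ`-divisible with `D[ℓ] = J[ℓ]`: `#D[ℓ^j] = ℓ^(2gj)`,
    and `#J[ℓ^j] ≤ ℓ^(2gj)` by (a). -/
theorem card_tors_of_frobCount {σ : AddMonoid.End J} {ℓ g : ℕ} (hℓ : ℓ.Prime)
    (h : FrobCount σ ℓ g) (j : ℕ) : Nat.card (tors J (ℓ ^ j)) = ℓ ^ (2 * g * j) := by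
  induction j with
  | zero =>
    have h0 : tors J (ℓ ^ 0) = ⊥ := by
      ext x
      rw [mem_tors, pow_zero, one_smul, AddSubgroup.mem_bot]
    rw [h0, AddSubgroup.card_bot, mul_zero, pow_zero]
  | succ j ih =>
    rw [h.card_tors_succ hℓ j, ih, ← pow_add]
    congr 1
    ring

end Fermat.Agent.S27
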