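import Mathlib
import Fermat.Agent.S27.Abstract

set_option autoImplicit false

/-!
# S27, block F: the abstract index lemma  (statement by helper40; proof by helper65)

`J` an abelian group, `ℓ` a prime, `J[ℓ]` of order `≤ ℓ^d`, and `ℓ^(d j) ≤ c * #J[ℓ^j]` for all `j`
with a constant `c` independent of `j`.  Then `#J[ℓ^j] = ℓ^(d j)` for all `j`.

Proof.  All `J[ℓ^j]` are finite (`Nat.card` of an infinite type is `0`) and of `ℓ`-power order
`t_j = ℓ^(e_j)`.  Multiplication by `ℓ^a` maps `J[ℓ^(a+b)]` to `J[ℓ^b]` with kernel `J[ℓ^a]`, so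
`t_(a+b) ≤ t_a t_b`; hence `t_j ≤ ℓ^(d j)` and `t_(n j) ≤ t_j ^ n`.  If `e_j < d j` then
`ℓ^(d n j) ≤ c ℓ^(n e_j)` gives `ℓ^n ≤ c` for all `n`: false for `n = c`.
-/

namespace Fermat.Agent.S27

section IndexAux

variable {J : Type*} [AddCommGroup J]

/-- `#J[ℓ^j]` is a power of `ℓ` when `J[ℓ^j]` is finite. -/
theorem Index.card_tors_eq_pow {ℓ : ℕ} (hℓ : ℓ.Prime) (j : ℕ)
    (hfin : Finite (tors J (ℓ ^ j))) : ∃ e, Nat.card (tors J (ℓ ^ j)) = ℓ ^ e := by
  have hfact : Fact ℓ.Prime := Fact.mk hℓ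
  have hp : IsPGroup ℓ (Multiplicative (tors J (ℓ ^ j))) := by
    intro g
    refine ⟨j, ?_⟩
    apply Multiplicative.toAdd.injective
    rw [toAdd_pow, toAdd_one]
    apply Subtype.ext
    rw [AddSubgroup.coe_nsmul]
    exact (Multiplicative.toAdd g).2
  have hfin' : Finite (Multiplicative (tors J (ℓ ^ j))) := hfin
  obtain ⟨n, hn⟩ := IsPGroup.iff_card.1 hp
  exact ⟨n, hn⟩

/-- `#J[ℓ^(a+b)] ≤ #J[ℓ^a] * #J[ℓ^b]`. -/
theorem Index.card_tors_add_le (ℓ a b : ℕ) (hfa : Finite (tors J (ℓ ^ a)))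
    (hfb : Finite (tors J (ℓ ^ b))) :
    Nat.card (tors J (ℓ ^ (a + b))) ≤ Nat.card (tors J (ℓ ^ a)) * Nat.card (tors J (ℓ ^ b)) := by
  rw [FC.card_eq_inf_ker_mul_map (tors J (ℓ ^ (a + b))) (nsmulAddMonoidHom (ℓ ^ a) : J →+ J)]
  refine Nat.mul_le_mul ?_ ?_
  · refine AddSubgroup.card_le_of_le ?_
    intro x hx
    exact hx.2
  · refine AddSubgroup.card_le_of_le ?_
    rintro _ ⟨x, hx, rfl⟩
    have hx' : ℓ ^ (a + b) • x = 0 := hx
    show ℓ ^ b • (ℓ ^ a • x) = 0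
    rw [← mul_smul, ← pow_add, add_comm b a]
    exact hx'

end IndexAux

/-- **Block F, abstract index lemma.**  (`Nat.card` of an infinite set is `0`, so `hL` contains the
finiteness of all `J[ℓ^j]`.) -/
theorem card_tors_eq_of_bounds {J : Type*} [AddCommGroup J] {ℓ d : ℕ} (hℓ : ℓ.Prime)
    (hU : Nat.card (tors J ℓ) ≤ ℓ ^ d)
    (hL : ∃ c : ℕ, 0 < c ∧ ∀ j : ℕ, ℓ ^ (d * j) ≤ c * Nat.card (tors J (ℓ ^ j))) (j : ℕ) :
    Nat.card (tors J (ℓ ^ j)) = ℓ ^ (d * j) := by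
  obtain ⟨c, hc, hL⟩ := hL
  have hℓ1 : 1 < ℓ := hℓ.one_lt
  have hfin : ∀ i, Finite (tors J (ℓ ^ i)) := by
    intro i
    apply Nat.finite_of_card_ne_zero
    intro h0
    have h1 := hL i
    rw [h0, mul_zero] at h1
    have h2 : 0 < ℓ ^ (d * i) := Nat.pow_pos hℓ.pos
    omega
  -- upper bound
  have hup : ∀ i, Nat.card (tors J (ℓ ^ i)) ≤ ℓ ^ (d * i) := by
    intro i
    induction i with
    | zero =>
      have h1 : Nat.card (tors J (ℓ ^ 0)) ≤ 1 := by
        have hz : ∀ x : tors J (ℓ ^ 0), (x : J) = 0 := by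
          intro x
          have hx : ℓ ^ 0 • (x : J) = 0 := x.2
          have h1 : ℓ ^ 0 • (x : J) = (x : J) := by
            generalize (x : J) = y
            rw [pow_zero, one_smul]
          exact h1.symm.trans hx
        have hss : Subsingleton (tors J (ℓ ^ 0)) :=
          ⟨fun x y => Subtype.ext ((hz x).trans (hz y).symm)⟩
        exact Finite.card_le_one_iff_subsingleton.2 hss
      simpa using h1
    | succ i ih =>
      have h1 := Index.card_tors_add_le (J := J) ℓ i 1 (hfin i) (hfin 1)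
      have h2 : Nat.card (tors J (ℓ ^ 1)) ≤ ℓ ^ d := by rwa [pow_one]
      calc Nat.card (tors J (ℓ ^ (i + 1)))
          ≤ Nat.card (tors J (ℓ ^ i)) * Nat.card (tors J (ℓ ^ 1)) := h1
        _ ≤ ℓ ^ (d * i) * ℓ ^ d := Nat.mul_le_mul ih h2
        _ = ℓ ^ (d * (i + 1)) := by rw [← pow_add, Nat.mul_succ]
  -- powers
  have hpow : ∀ n, Nat.card (tors J (ℓ ^ (n * j))) ≤ Nat.card (tors J (ℓ ^ j)) ^ n := by
    intro n
    induction n with
    | zero =>
      have := hup 0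
      simpa using this
    | succ n ih =>
      have h1 := Index.card_tors_add_le (J := J) ℓ (n * j) j (hfin _) (hfin _)
      calc Nat.card (tors J (ℓ ^ ((n + 1) * j)))
          = Nat.card (tors J (ℓ ^ (n * j + j))) := by rw [Nat.succ_mul]
        _ ≤ Nat.card (tors J (ℓ ^ (n * j))) * Nat.card (tors J (ℓ ^ j)) := h1
        _ ≤ Nat.card (tors J (ℓ ^ j)) ^ n * Nat.card (tors J (ℓ ^ j)) :=
            Nat.mul_le_mul_right _ ih
        _ = Nat.card (tors J (ℓ ^ j)) ^ (n + 1) := (pow_succ _ _).symm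
  obtain ⟨e, he⟩ := Index.card_tors_eq_pow hℓ j (hfin j)
  have hej : e ≤ d * j := by
    have := hup j
    rw [he] at this
    exact (Nat.pow_le_pow_iff_right hℓ1).1 this
  rw [he]
  congr 1
  by_contra hne
  have hlt : e + 1 ≤ d * j := by omega
  -- take n = c
  have h1 := hL (c * j)
  have h2 := hpow c
  rw [he, ← pow_mul] at h2
  have h3 : ℓ ^ (d * (c * j)) ≤ c * ℓ ^ (e * c) := h1.trans (Nat.mul_le_mul_left c h2)
  have h4 : e * c + c ≤ d * (c * j) := by
    have : (e + 1) * c ≤ (d * j) * c := Nat.mul_le_mul_right c hlt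
    calc e * c + c = (e + 1) * c := by ring
      _ ≤ (d * j) * c := this
      _ = d * (c * j) := by ring
  have h5 : ℓ ^ (e * c) * ℓ ^ c ≤ c * ℓ ^ (e * c) := by
    rw [← pow_add]
    exact (Nat.pow_le_pow_right hℓ.pos h4).trans h3
  have h6 : ℓ ^ c ≤ c := by
    have hpos : 0 < ℓ ^ (e * c) := Nat.pow_pos hℓ.pos
    rw [mul_comm c] at h5
    exact Nat.le_of_mul_le_mul_left h5 hpos
  exact absurd (Nat.lt_pow_self hℓ1 (n := c)) (not_lt.2 h6)

end Fermat.Agent.S27
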