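import Mathlib
import Fermat.Prelude.Def_AlgebraicCurve_DivisorClassGroup
import Fermat.Prelude.Def_AlgebraicCurve_IsCurveOver
import Fermat.Prelude.Def_AlgebraicCurve_Repartitions
import Fermat.Agent.Lib.RR.Defs
import Fermat.Agent.S27.Abstract
import Fermat.Agent.S27.Index

set_option autoImplicit false

/-!
# S27, top level (architect helper40): the two bounds and the index lemma

`S27` is `#Pic⁰(F)[ℓ^j] = ℓ^(2 g j)` for `F / K` a curve over an algebraically closed field of
characteristic `0`.  It is split into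

* `TorsionUpper` (blocks A, B, C, D): `Pic⁰(F)[ℓ]` is finite of order `≤ ℓ^(2g)`
  (reduction mod `p`, `sp` injective on `ℓ`-torsion, count in characteristic `p`);
* `TorsionLower` (block E, lifting): there is a constant `c > 0`, INDEPENDENT of `j`, with
  `ℓ^(2 g j) ≤ c * #Pic⁰(F)[ℓ^j]` for all `j` (degree comparison for generic divisors; a constant
  factor such as `g! * N^g` is allowed);
* `card_tors_eq_of_bounds` (abstract, block F): the two bounds give equality.  Proof: the orders
  `r_j = #(ℓ^j • J[ℓ^(j+1)])` of the subgroups `ℓ^j • J[ℓ^(j+1)] ⊆ J[ℓ]` are non-increasing powers of `ℓ`,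
  `≤ ℓ^d`, and `#J[ℓ^j] = r_0 * ... * r_(j-1)`; if one `r_i ≤ ℓ^(d-1)` then
  `#J[ℓ^j] ≤ ℓ^(d j - (j - i))` for `j ≥ i`, against the lower bound for `j = i + c`.
-/

noncomputable section

open AlgebraicCurve

namespace Fermat.Agent.S27

open Fermat.Agent.RR

universe u v

/-- **(U)** upper bound for the `ℓ`-torsion in characteristic `0`.  OWNER: block C (with D). -/
def TorsionUpper : Prop :=
  ∀ (K : Type u) (F : Type v) [Field K] [Field F] [Algebra K F] [IsAlgClosed K] [CharZero K],
    IsRRField K F → ∀ ℓ : ℕ, ℓ.Prime →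
      Nat.card (Pic0.torsion K F ℓ) ≤ ℓ ^ (2 * genusFF K F)

/-- **(L)** lower bound up to a constant, in characteristic `0`.  OWNER: block E. -/
def TorsionLower : Prop :=
  ∀ (K : Type u) (F : Type v) [Field K] [Field F] [Algebra K F] [IsAlgClosed K] [CharZero K],
    IsRRField K F → ∀ ℓ : ℕ, ℓ.Prime →
      ∃ c : ℕ, 0 < c ∧ ∀ j : ℕ,
        ℓ ^ (2 * genusFF K F * j) ≤ c * Nat.card (Pic0.torsion K F (ℓ ^ j))

theorem card_torsion_eq_card_tors (K : Type u) (F : Type v) [Field K] [Field F] [Algebra K F]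
    (n : ℕ) : Nat.card (Pic0.torsion K F n) = Nat.card (tors (Pic0 K F) n) := by
  refine Nat.card_congr (Equiv.subtypeEquivRight fun x => ?_)
  rw [Pic0.mem_torsion, mem_tors, natCast_zsmul]

/-- **S27 from the two bounds** (for `IsRRField`; block A0 = `Fermat.Agent.S27.isRRField` supplies
the hypothesis from `IsCurveOver` and `Algebra.EssFiniteType`). -/
theorem card_torsion_of_bounds (hU : TorsionUpper.{u, v}) (hL : TorsionLower.{u, v})
    (K : Type u) (F : Type v) [Field K] [Field F] [Algebra K F] [IsAlgClosed K] [CharZero K]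
    (hRR : IsRRField K F) (ℓ : ℕ) (hℓ : ℓ.Prime) (j : ℕ) :
    Nat.card (Pic0.torsion K F (ℓ ^ j)) = ℓ ^ (2 * genusFF K F * j) := by
  rw [card_torsion_eq_card_tors]
  refine card_tors_eq_of_bounds hℓ ?_ ?_ j
  · rw [← card_torsion_eq_card_tors]
    exact hU K F hRR ℓ hℓ
  · obtain ⟨c, hc, h⟩ := hL K F hRR ℓ hℓ
    refine ⟨c, hc, fun i => ?_⟩
    rw [← card_torsion_eq_card_tors]
    exact h i

end Fermat.Agent.S27
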