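import Mathlib
import Fermat.Agent.Lib.FrobTrace.Residue

/-!
# S27 / ValChoice : seat B, the choice of the valuation (helper29)

`K` a field of characteristic `0`, `T` a finite set of non-zero elements of `K`.  Then there are a
prime number `p` and a valuation subring `A` of `K` such that every element of `T` is a unit of
`A`, `p` lies in the maximal ideal of `A`, and the residue field of `A` is integral over `ℤ`
(= algebraic over `𝔽_p`).  If `K` is algebraically closed, so is the residue field
(`Fermat.Agent.FrobTrace.isAlgClosed_residueField`), hence it is an algebraic closure of `𝔽_p`.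

Proof: `R = ℤ[T, T⁻¹]` is a finitely generated `ℤ`-algebra, so the quotient by a maximal ideal is a
finite field (Zariski's lemma over the Jacobson ring `ℤ`); Zorn's lemma on the local subrings of `K`
whose residue field is integral over `ℤ`, ordered by domination: a maximal one is a valuation ring
(as in `LocalSubring.exists_valuationRing_of_isMax`; the residue field of `R[x]_Q` is generated by
one element over that of `R`, hence finite over it by Zariski's lemma again).
-/

set_option autoImplicit false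
set_option linter.style.haveILetI false

open IsLocalRing

namespace Fermat.Agent.S27

universe u

variable {K : Type u} [Field K]

/-- The residue field of the local subring `L` is integral over `ℤ`. -/
def ResInt (L : LocalSubring K) : Prop :=
  Algebra.IsIntegral ℤ (IsLocalRing.ResidueField L.toSubring)

/-- Integrality over `ℤ` passes along surjective ring homomorphisms. -/
lemma vc_isIntegral_of_surjective {A B : Type*} [CommRing A] [CommRing B] (f : A →+* B)
    (hf : Function.Surjective f) (hA : Algebra.IsIntegral ℤ A) : Algebra.IsIntegral ℤ B :=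
  Algebra.IsIntegral.of_surjective f.toIntAlgHom hf

/-- Integrality over `ℤ` of the image of an integral element. -/
lemma vc_isIntegral_map {A B : Type*} [CommRing A] [CommRing B] (f : A →+* B) {a : A}
    (ha : IsIntegral ℤ a) : IsIntegral ℤ (f a) :=
  ha.map f.toIntAlgHom

/-- The residue field of the localisation of a subring at a maximal ideal `Q` is `A ⧸ Q`. -/
lemma resInt_ofPrime (A : Subring K) (Q : Ideal A) [Q.IsMaximal]
    (h : Algebra.IsIntegral ℤ (A ⧸ Q)) : ResInt (LocalSubring.ofPrime A Q) :=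
  vc_isIntegral_of_surjective
    (IsLocalization.AtPrime.equivQuotMaximalIdeal Q (LocalSubring.ofPrime A Q).toSubring).toRingHom
    (IsLocalization.AtPrime.equivQuotMaximalIdeal Q (LocalSubring.ofPrime A Q).toSubring).surjective
    h

/-- A field generated by one element over a field `k` integral over `ℤ` is integral over `ℤ`. -/
lemma vc_isIntegral_of_generated {k F : Type*} [Field k] [Field F] [Algebra k F]
    (hk : Algebra.IsIntegral ℤ k) (x : F)
    (hx : Function.Surjective (Polynomial.aeval (R := k) x)) : Algebra.IsIntegral ℤ F := by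
  haveI : Algebra.FiniteType k F := Algebra.FiniteType.of_surjective (Polynomial.aeval x) hx
  haveI : Module.Finite k F := finite_of_finite_type_of_isJacobsonRing k F
  haveI : Algebra.IsIntegral k F := Algebra.IsIntegral.of_finite k F
  exact Algebra.IsIntegral.trans k

/-- **The step.**  `R` a local subring with residue field integral over `ℤ`, `A ⊇ R` a subring
generated by one element `x` over `R`, `Q` a maximal ideal of `A` containing the maximal ideal of
`R`: then `A_Q` dominates `R` and its residue field is integral over `ℤ`. -/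
lemma resInt_step {R : LocalSubring K} (hR : ResInt R) (A : Subring K) (hRA : R.toSubring ≤ A)
    (x : K) (hxA : x ∈ A)
    (hgen : ∀ a ∈ A, ∃ g : Polynomial R.toSubring, Polynomial.aeval x g = a)
    (Q : Ideal A) [Q.IsMaximal]
    (hQ : (maximalIdeal R.toSubring).map (Subring.inclusion hRA) ≤ Q) :
    R ≤ LocalSubring.ofPrime A Q ∧ ResInt (LocalSubring.ofPrime A Q) := by
  constructor
  · refine ⟨hRA.trans (LocalSubring.le_ofPrime _ _), ((local_hom_TFAE _).out 2 0).mp ?_⟩
    conv_rhs => rw [← IsLocalization.AtPrime.map_eq_maximalIdeal Q]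
    refine .trans ?_ (Ideal.map_mono hQ)
    rw [Ideal.map_map]; rfl
  · apply resInt_ofPrime
    -- the residue field of `R` maps to `A ⧸ Q`
    let φ : IsLocalRing.ResidueField R.toSubring →+* A ⧸ Q :=
      Ideal.Quotient.lift (maximalIdeal R.toSubring)
        ((Ideal.Quotient.mk Q).comp (Subring.inclusion hRA)) (fun a ha => by
          rw [RingHom.comp_apply, Ideal.Quotient.eq_zero_iff_mem]
          exact hQ (Ideal.mem_map_of_mem _ ha))
    letI : Field (A ⧸ Q) := Ideal.Quotient.field Q
    letI : Algebra (IsLocalRing.ResidueField R.toSubring) (A ⧸ Q) := φ.toAlgebra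
    refine vc_isIntegral_of_generated (k := IsLocalRing.ResidueField R.toSubring) hR
      (Ideal.Quotient.mk Q ⟨x, hxA⟩) ?_
    intro z
    obtain ⟨a, rfl⟩ := Ideal.Quotient.mk_surjective z
    obtain ⟨g, hg⟩ := hgen a.1 a.2
    refine ⟨g.map (IsLocalRing.residue R.toSubring), ?_⟩
    -- two ring homomorphisms `R[X] → A ⧸ Q`
    have key : ∀ g : Polynomial R.toSubring,
        Polynomial.aeval (Ideal.Quotient.mk Q ⟨x, hxA⟩) (g.map (IsLocalRing.residue R.toSubring)) =
          Ideal.Quotient.mk Q (Polynomial.eval₂ (Subring.inclusion hRA) ⟨x, hxA⟩ g) := by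
      intro g
      rw [Polynomial.aeval_def, Polynomial.eval₂_map, Polynomial.hom_eval₂]
      rfl
    rw [key]
    congr 1
    apply Subtype.ext
    rw [← hg]
    have h2 : A.subtype (Polynomial.eval₂ (Subring.inclusion hRA) ⟨x, hxA⟩ g) =
        Polynomial.eval₂ (A.subtype.comp (Subring.inclusion hRA)) (A.subtype ⟨x, hxA⟩) g :=
      Polynomial.hom_eval₂ g (Subring.inclusion hRA) A.subtype ⟨x, hxA⟩
    exact h2

/-- `R ≤ R[x]` as subrings. -/
lemma vc_le_adjoin (R : Subring K) (x : K) : R ≤ (Algebra.adjoin R {x}).toSubring :=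
  fun r hr => (Algebra.adjoin R {x}).algebraMap_mem ⟨r, hr⟩

/-- If `R` is maximal among the local subrings with residue field integral over `ℤ` and `R[x]` has
a maximal ideal over the maximal ideal of `R`, then `x ∈ R`. -/
lemma mem_of_maximal_resInt {R : LocalSubring K} (hR : Maximal ResInt R) (x : K)
    (Q : Ideal (Algebra.adjoin R.toSubring {x}).toSubring) [Q.IsMaximal]
    (hQ : (maximalIdeal R.toSubring).map (Subring.inclusion (vc_le_adjoin R.toSubring x)) ≤ Q) :
    x ∈ R.toSubring := by
  have hxA : x ∈ (Algebra.adjoin R.toSubring {x}).toSubring :=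
    Algebra.self_mem_adjoin_singleton _ _
  have hgen : ∀ a ∈ (Algebra.adjoin R.toSubring {x}).toSubring,
      ∃ g : Polynomial R.toSubring, Polynomial.aeval x g = a := by
    intro a ha
    have ha' : a ∈ Algebra.adjoin R.toSubring {x} := ha
    rw [Algebra.adjoin_singleton_eq_range_aeval] at ha'
    exact ha'
  obtain ⟨hle, hres⟩ := resInt_step hR.1 _ (vc_le_adjoin R.toSubring x) x hxA hgen Q hQ
  have h := hR.2 hres hle
  exact h.1 (LocalSubring.le_ofPrime _ _ hxA)

open Polynomial Algebra in
/-- A local subring maximal among those with residue field integral over `ℤ` is a valuation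
subring. -/
lemma exists_valuationSubring_of_maximal_resInt {R : LocalSubring K} (hR : Maximal ResInt R) :
    ∃ B : ValuationSubring K, B.toLocalSubring = R := by
  suffices ∀ x ∉ R.toSubring, x⁻¹ ∈ R.toSubring from
    ⟨⟨R.toSubring, fun x ↦ or_iff_not_imp_left.mpr (this x)⟩, rfl⟩
  intro x hx
  have hx0 : x ≠ 0 := fun e ↦ hx (e ▸ zero_mem _)
  let := invertibleOfNonzero hx0
  -- the maximal ideal of `R` generates the unit ideal of `R[x]`
  have htop : (maximalIdeal R.toSubring).map
      (Subring.inclusion (vc_le_adjoin R.toSubring x)) = ⊤ := by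
    by_contra hne
    obtain ⟨M, hM, hle⟩ := Ideal.exists_le_maximal _ hne
    exact hx (mem_of_maximal_resInt hR x M hle)
  have ⟨p, hp, hpx⟩ := exists_aeval_invOf_eq_zero_of_idealMap_adjoin_sup_span_eq_top x _
    (maximalIdeal.isMaximal R.toSubring).ne_top
    (top_unique <| htop.ge.trans le_self_add)
  have H : IsUnit p.leadingCoeff := of_not_not fun h ↦ by simpa using sub_mem h hp
  have hint : IsIntegral R.toSubring x⁻¹ :=
    ⟨.C H.unit⁻¹.1 * p, by simp [Polynomial.Monic], by simpa using .inr hpx⟩
  -- `x⁻¹` is integral over `R`: lying over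
  have : Algebra.IsIntegral R.toSubring (Algebra.adjoin R.toSubring {x⁻¹}) :=
    Algebra.IsIntegral.adjoin (by simpa using hint)
  obtain ⟨Q : Ideal (Algebra.adjoin R.toSubring {x⁻¹}).toSubring, hQ, e⟩ :=
    Ideal.exists_ideal_over_maximal_of_isIntegral
      (S := Algebra.adjoin R.toSubring {x⁻¹}) (maximalIdeal R.toSubring)
      (le_maximalIdeal (by simp))
  exact mem_of_maximal_resInt hR x⁻¹ Q (Ideal.map_le_iff_le_comap.mpr e.ge)

/-- The union of a non-empty chain of local subrings (for the domination order). -/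
lemma exists_chain_ub (c : Set (LocalSubring K)) (H : IsChain (· ≤ ·) c)
    (y : LocalSubring K) (hy : y ∈ c) :
    ∃ U : LocalSubring K, (∀ A ∈ c, A ≤ U) ∧
      ∀ a ∈ U.toSubring, ∃ A ∈ c, a ∈ A.toSubring := by
  have inst : Nonempty c := ⟨⟨y, hy⟩⟩
  have hdir := H.directed.mono_comp _ LocalSubring.toSubring_mono
  refine ⟨@LocalSubring.mk _ _ (⨆ i : c, i.1.toSubring) ⟨?_⟩, ?_, ?_⟩
  · intro ⟨a, ha⟩ ⟨b, hb⟩ e
    obtain ⟨A, haA : a ∈ A.1.toSubring⟩ := (Subring.mem_iSup_of_directed hdir).mp ha
    obtain ⟨B, hbB : b ∈ B.1.toSubring⟩ := (Subring.mem_iSup_of_directed hdir).mp hb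
    obtain ⟨C, hCA, hCB⟩ := hdir A B
    refine (C.1.2.2 (a := ⟨a, hCA haA⟩) (b := ⟨b, hCB hbB⟩) (Subtype.ext congr(($e).1))).imp ?_ ?_
    · exact fun h ↦ h.map (Subring.inclusion (le_iSup (fun i : c ↦ i.1.toSubring) C))
    · exact fun h ↦ h.map (Subring.inclusion (le_iSup (fun i : c ↦ i.1.toSubring) C))
  · intro A hA
    refine ⟨le_iSup (fun i : c ↦ i.1.toSubring) ⟨A, hA⟩, ⟨?_⟩⟩
    rintro ⟨a, haA⟩ h
    obtain ⟨⟨b, hb⟩, e⟩ := isUnit_iff_exists_inv.mp h
    obtain ⟨B, hbB : b ∈ B.1.toSubring⟩ := (Subring.mem_iSup_of_directed hdir).mp hb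
    obtain ⟨C, hCA, hCB⟩ := H.directed ⟨A, hA⟩ B
    apply hCA.2.1
    exact isUnit_iff_exists_inv.mpr ⟨⟨b, hCB.1 hbB⟩, Subtype.ext congr(($e).1)⟩
  · intro a ha
    obtain ⟨A, haA : a ∈ A.1.toSubring⟩ := (Subring.mem_iSup_of_directed hdir).mp ha
    exact ⟨A.1, A.2, haA⟩

/-- Domination and residue fields: if `A ≤ U` and the residue field of `A` is integral over `ℤ`,
the residue class in `U` of an element of `A` is integral over `ℤ`. -/
lemma isIntegral_residue_of_le {A U : LocalSubring K} (hAU : A ≤ U) (hA : ResInt A)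
    (a : K) (ha : a ∈ A.toSubring) :
    IsIntegral ℤ (IsLocalRing.residue U.toSubring ⟨a, hAU.1 ha⟩) := by
  haveI : IsLocalHom (Subring.inclusion hAU.1) := hAU.2
  have h1 : IsIntegral ℤ (IsLocalRing.residue A.toSubring ⟨a, ha⟩) := hA.isIntegral _
  have h2 := vc_isIntegral_map (IsLocalRing.ResidueField.map (Subring.inclusion hAU.1)) h1
  rw [IsLocalRing.ResidueField.map_residue] at h2
  exact h2

/-- **Zorn.**  Every local subring with residue field integral over `ℤ` is dominated by a
maximal one. -/
lemma exists_maximal_resInt (L : LocalSubring K) (hL : ResInt L) :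
    ∃ M, L ≤ M ∧ Maximal ResInt M := by
  refine zorn_le_nonempty₀ {L | ResInt L} ?_ L hL
  intro c hc H y hy
  obtain ⟨U, hU, hmem⟩ := exists_chain_ub c H y hy
  refine ⟨U, ?_, hU⟩
  show ResInt U
  refine ⟨fun z => ?_⟩
  obtain ⟨⟨a, ha⟩, rfl⟩ := IsLocalRing.residue_surjective z
  obtain ⟨A, hA, haA⟩ := hmem a ha
  exact isIntegral_residue_of_le (hU A hA) (hc hA) a haA

/-- Every local subring of `K` with residue field integral over `ℤ` is dominated by a valuation
subring of `K` with residue field integral over `ℤ`. -/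
theorem exists_valuationSubring_resInt (L : LocalSubring K) (hL : ResInt L) :
    ∃ B : ValuationSubring K, L ≤ B.toLocalSubring ∧
      Algebra.IsIntegral ℤ (IsLocalRing.ResidueField B) := by
  obtain ⟨M, hLM, hM⟩ := exists_maximal_resInt L hL
  obtain ⟨B, rfl⟩ := exists_valuationSubring_of_maximal_resInt hM
  exact ⟨B, hLM, hM.1⟩

/-- A field which is integral over `ℤ` has prime characteristic. -/
lemma exists_prime_charP_of_isIntegral (k : Type*) [Field k] (hk : Algebra.IsIntegral ℤ k) :
    ∃ p : ℕ, p.Prime ∧ CharP k p := by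
  obtain ⟨p, hp⟩ := CharP.exists k
  rcases CharP.char_is_prime_or_zero k p with h | h
  · exact ⟨p, h, hp⟩
  · exfalso
    subst h
    haveI : CharZero k := CharP.charP_to_charZero k
    have h1 : IsIntegral ℤ (algebraMap ℚ k (1 / 2)) := hk.isIntegral _
    rw [isIntegral_algebraMap_iff (algebraMap ℚ k).injective] at h1
    obtain ⟨y, hy⟩ := IsIntegrallyClosed.isIntegral_iff.mp h1
    have h2 : ((2 * y : ℤ) : ℚ) = 1 := by
      push_cast
      have h3 : ((y : ℤ) : ℚ) = 1 / 2 := hy
      rw [h3]
      norm_num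
    have h4 : (2 * y : ℤ) = 1 := by exact_mod_cast h2
    omega

/-- Integral over `ℤ` implies algebraic over `𝔽_p`. -/
lemma isAlgebraic_zmod_of_isIntegral (p : ℕ) (k : Type*) [Field k] [Algebra (ZMod p) k]
    (hk : Algebra.IsIntegral ℤ k) : Algebra.IsAlgebraic (ZMod p) k := by
  haveI : Nontrivial (ZMod p) := (algebraMap (ZMod p) k).domain_nontrivial
  exact ⟨fun x => ((hk.isIntegral x).tower_top (A := ZMod p)).isAlgebraic⟩

/-- `ℤ` is a Jacobson ring. -/
theorem vc_isJacobsonRing_int : IsJacobsonRing ℤ := by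
  rw [isJacobsonRing_iff_prime_eq]
  intro P hP
  by_cases h0 : P = ⊥
  · subst h0
    rw [eq_bot_iff]
    intro n hn
    rw [Ideal.mem_bot]
    by_contra hne
    obtain ⟨p, hp, hpn⟩ := Nat.exists_infinite_primes (n.natAbs + 1)
    have hmax : (Ideal.span {(p : ℤ)}).IsMaximal :=
      PrincipalIdealRing.isMaximal_of_irreducible (Nat.prime_iff_prime_int.1 hpn).irreducible
    have h1 : n ∈ Ideal.span {(p : ℤ)} := by
      rw [Ideal.jacobson, Ideal.mem_sInf] at hn
      exact hn ⟨bot_le, hmax⟩
    rw [Ideal.mem_span_singleton] at h1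
    have h2 : p ∣ n.natAbs := Int.natCast_dvd.1 h1
    have h3 : p ≤ n.natAbs := Nat.le_of_dvd (Int.natAbs_pos.2 hne) h2
    omega
  · haveI := hP.isMaximal h0
    exact Ideal.jacobson_eq_self_of_isMaximal

/-- **Seat B.**  For a finite subset `T` of a field `K` there are a prime number `p` and a
valuation subring `A` of `K` such that `t, t⁻¹ ∈ A` for all `t ∈ T`, the residue field of `A` has
characteristic `p` and is integral over `ℤ` (i.e. algebraic over `𝔽_p`). -/
theorem exists_valuationSubring_units (T : Finset K) :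
    ∃ (p : ℕ) (A : ValuationSubring K), p.Prime ∧ (∀ t ∈ T, t ∈ A ∧ t⁻¹ ∈ A) ∧
      CharP (IsLocalRing.ResidueField A) p ∧
      Algebra.IsIntegral ℤ (IsLocalRing.ResidueField A) := by
  classical
  set s : Set K := (T : Set K) ∪ (fun t => t⁻¹) '' (T : Set K) with hs
  have hsfin : s.Finite := (T.finite_toSet).union ((T.finite_toSet).image _)
  set R₀ : Subalgebra ℤ K := Algebra.adjoin ℤ s with hR₀
  haveI : Algebra.FiniteType ℤ R₀ := Algebra.FiniteType.adjoin_of_finite hsfin
  obtain ⟨m, hm⟩ := Ideal.exists_maximal R₀.toSubring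
  haveI := hm
  letI : Field (R₀.toSubring ⧸ m) := Ideal.Quotient.field m
  have hres : ResInt (LocalSubring.ofPrime R₀.toSubring m) := by
    apply resInt_ofPrime
    haveI : Algebra.FiniteType ℤ (R₀.toSubring ⧸ m) :=
      Algebra.FiniteType.of_surjective (A := R₀) (Ideal.Quotient.mk m).toIntAlgHom
        Ideal.Quotient.mk_surjective
    haveI : IsJacobsonRing ℤ := vc_isJacobsonRing_int
    haveI : Module.Finite ℤ (R₀.toSubring ⧸ m) :=
      finite_of_finite_type_of_isJacobsonRing ℤ (R₀.toSubring ⧸ m)
    exact Algebra.IsIntegral.of_finite ℤ _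
  obtain ⟨A, hLA, hA⟩ := exists_valuationSubring_resInt _ hres
  obtain ⟨p, hp, hchar⟩ := exists_prime_charP_of_isIntegral _ hA
  refine ⟨p, A, hp, fun t ht => ?_, hchar, hA⟩
  have hle : R₀.toSubring ≤ A.toSubring := (LocalSubring.le_ofPrime _ _).trans hLA.1
  exact ⟨hle (Algebra.subset_adjoin (Or.inl ht)),
    hle (Algebra.subset_adjoin (Or.inr ⟨t, ht, rfl⟩))⟩

/-- If the residue field of `A` has characteristic `p`, then `p` is a non-unit of `A`. -/
lemma natCast_mem_nonunits_of_charP (A : ValuationSubring K) (p : ℕ)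
    [CharP (IsLocalRing.ResidueField A) p] : (p : K) ∈ A.nonunits := by
  have h1 : IsLocalRing.residue A (p : A) = 0 := by
    rw [map_natCast]
    exact CharP.cast_eq_zero _ p
  rw [IsLocalRing.residue_eq_zero_iff] at h1
  rw [ValuationSubring.mem_nonunits_iff_exists_mem_maximalIdeal]
  exact ⟨natCast_mem A p, h1⟩

/-- A non-zero element `t` with `t, t⁻¹ ∈ A` has non-zero residue class. -/
lemma residue_ne_zero_of_mem_of_inv_mem (A : ValuationSubring K) {t : K} (ht0 : t ≠ 0)
    (ht : t ∈ A) (ht' : t⁻¹ ∈ A) : IsLocalRing.residue A ⟨t, ht⟩ ≠ 0 := by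
  intro h
  rw [IsLocalRing.residue_eq_zero_iff] at h
  have hu : IsUnit (⟨t, ht⟩ : A) :=
    isUnit_iff_exists_inv.mpr ⟨⟨t⁻¹, ht'⟩, Subtype.ext (mul_inv_cancel₀ ht0)⟩
  exact (IsLocalRing.mem_maximalIdeal _).1 h hu

/-- If the natural number `n ≠ 0` in `K` is a unit of `A`, the residue characteristic does not
divide `n`. -/
lemma not_dvd_of_natCast_mem (A : ValuationSubring K) (p : ℕ)
    [CharP (IsLocalRing.ResidueField A) p] {n : ℕ} (hn0 : (n : K) ≠ 0)
    (hn : ((n : K))⁻¹ ∈ A) : ¬ p ∣ n := by
  intro hdvd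
  have h1 := residue_ne_zero_of_mem_of_inv_mem A hn0 (natCast_mem A n) hn
  apply h1
  have h2 : (⟨(n : K), natCast_mem A n⟩ : A) = ((n : ℕ) : A) := Subtype.ext (by simp)
  rw [h2, map_natCast]
  exact (CharP.cast_eq_zero_iff _ p n).2 hdvd

/-- **Seat B, algebraically closed form.**  `K` algebraically closed, `T ⊆ K` finite: there are a
prime `p` and a valuation subring `A` of `K` with `t, t⁻¹ ∈ A` for `t ∈ T`, whose residue field is
algebraically closed of characteristic `p` and integral over `ℤ` (an algebraic closure of `𝔽_p`). -/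
theorem exists_valuationSubring_units_algClosed [IsAlgClosed K] (T : Finset K) :
    ∃ (p : ℕ) (A : ValuationSubring K), p.Prime ∧ (∀ t ∈ T, t ∈ A ∧ t⁻¹ ∈ A) ∧
      CharP (IsLocalRing.ResidueField A) p ∧
      Algebra.IsIntegral ℤ (IsLocalRing.ResidueField A) ∧
      IsAlgClosed (IsLocalRing.ResidueField A) := by
  obtain ⟨p, A, hp, hT, hchar, hint⟩ := exists_valuationSubring_units T
  exact ⟨p, A, hp, hT, hchar, hint, Fermat.Agent.FrobTrace.isAlgClosed_residueField A⟩

/-- **Seat B, with a prime to avoid.**  `K` algebraically closed of characteristic `0`, `T ⊆ K`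
finite, `N ≠ 0` a natural number: as above, with `p ∤ N`. -/
theorem exists_valuationSubring_units_not_dvd [IsAlgClosed K] [CharZero K] (T : Finset K)
    (N : ℕ) (hN : N ≠ 0) :
    ∃ (p : ℕ) (A : ValuationSubring K), p.Prime ∧ ¬ p ∣ N ∧ (∀ t ∈ T, t ∈ A ∧ t⁻¹ ∈ A) ∧
      CharP (IsLocalRing.ResidueField A) p ∧
      Algebra.IsIntegral ℤ (IsLocalRing.ResidueField A) ∧
      IsAlgClosed (IsLocalRing.ResidueField A) := by
  classical
  obtain ⟨p, A, hp, hT, hchar, hint, hac⟩ :=
    exists_valuationSubring_units_algClosed (insert (N : K) T)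
  haveI := hchar
  refine ⟨p, A, hp, ?_, fun t ht => hT t (Finset.mem_insert_of_mem ht), hchar, hint, hac⟩
  exact not_dvd_of_natCast_mem A p (Nat.cast_ne_zero.2 hN)
    (hT _ (Finset.mem_insert_self _ _)).2

end Fermat.Agent.S27
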