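import Mathlib

set_option autoImplicit false

/-!
# S27, block D7 (helper20): growth of `det (1 - A ^ n)` along `n ↦ n ℓ`

`A` an integer `d × d` matrix with `ℓ ∤ det A`.  There is `n₀ > 0` with `A ^ n₀ ≡ 1 mod ℓ²`, and for
every multiple `n` of `n₀`:  `det (1 - A ^ (n ℓ)) = det (1 - A ^ n) * ℓ ^ d * u` with `ℓ ∤ u`.
Hence, if `h m = |det (1 - A ^ m)| ≠ 0`:  `v_ℓ (h (n ℓ)) = v_ℓ (h n) + d`.
-/

namespace Fermat.Agent.S27

open Matrix Finset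

variable {d : ℕ}

/-- congruence modulo `ℓ ^ 2` of integer matrices, entrywise. -/
def MatCong (ℓ : ℕ) (B : Matrix (Fin d) (Fin d) ℤ) : Prop :=
  ∃ C : Matrix (Fin d) (Fin d) ℤ, B = 1 + ((ℓ : ℤ) ^ 2) • C

theorem MatCong.one (ℓ : ℕ) : MatCong ℓ (1 : Matrix (Fin d) (Fin d) ℤ) :=
  ⟨0, by simp⟩

theorem MatCong.mul {ℓ : ℕ} {B B' : Matrix (Fin d) (Fin d) ℤ} (h : MatCong ℓ B)
    (h' : MatCong ℓ B') : MatCong ℓ (B * B') := by
  obtain ⟨C, rfl⟩ := h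
  obtain ⟨C', rfl⟩ := h'
  refine ⟨C + C' + ((ℓ : ℤ) ^ 2) • (C * C'), ?_⟩
  simp only [add_mul, mul_add, one_mul, mul_one, smul_mul_assoc, mul_smul_comm, smul_add,
    smul_smul]
  abel

theorem MatCong.pow {ℓ : ℕ} {B : Matrix (Fin d) (Fin d) ℤ} (h : MatCong ℓ B) (i : ℕ) :
    MatCong ℓ (B ^ i) := by
  induction i with
  | zero => rw [pow_zero]; exact MatCong.one ℓ
  | succ i ih => rw [pow_succ]; exact ih.mul h

/-- a matrix whose reduction modulo `ℓ ^ 2` is `1`. -/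
theorem matCong_of_map_eq_one {ℓ : ℕ} {B : Matrix (Fin d) (Fin d) ℤ}
    (h : B.map (Int.castRingHom (ZMod (ℓ ^ 2))) = 1) : MatCong ℓ B := by
  have hent : ∀ i j, ((ℓ : ℤ) ^ 2) ∣ (B - 1) i j := by
    intro i j
    have h1 := congrFun (congrFun h i) j
    rw [Matrix.map_apply] at h1
    have h2 : ((((B - 1) i j : ℤ)) : ZMod (ℓ ^ 2)) = 0 := by
      rw [Matrix.sub_apply, Int.cast_sub]
      have h3 : (Int.castRingHom (ZMod (ℓ ^ 2))) (B i j) = ((B i j : ℤ) : ZMod (ℓ ^ 2)) := rfl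
      rw [← h3, h1]
      by_cases hij : i = j
      · subst hij
        simp
      · simp [Matrix.one_apply_ne hij]
    have h4 := (ZMod.intCast_zmod_eq_zero_iff_dvd _ _).mp h2
    exact_mod_cast h4
  choose C hC using hent
  refine ⟨Matrix.of C, ?_⟩
  ext i j
  have := hC i j
  rw [Matrix.sub_apply] at this
  rw [Matrix.add_apply, Matrix.smul_apply, Matrix.of_apply, smul_eq_mul, ← this]
  ring

/-- some positive power of `A` is congruent to `1` modulo `ℓ ^ 2`. -/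
theorem exists_pow_matCong (A : Matrix (Fin d) (Fin d) ℤ) (ℓ : ℕ) [hℓ : Fact ℓ.Prime]
    (hdet : ¬ (ℓ : ℤ) ∣ A.det) : ∃ n₀ : ℕ, 0 < n₀ ∧ MatCong ℓ (A ^ n₀) := by
  have : NeZero (ℓ ^ 2) := ⟨pow_ne_zero 2 hℓ.out.ne_zero⟩
  set φ := Int.castRingHom (ZMod (ℓ ^ 2)) with hφ
  set Ab : Matrix (Fin d) (Fin d) (ZMod (ℓ ^ 2)) := A.map φ with hAb
  have hdetb : IsUnit Ab.det := by
    have h1 : Ab.det = φ A.det := by
      rw [hAb]
      exact (RingHom.map_det φ A).symm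
    rw [h1]
    have hcop : IsCoprime A.det ((ℓ ^ 2 : ℕ) : ℤ) := by
      push_cast
      refine IsCoprime.pow_right ?_
      rw [Int.isCoprime_iff_gcd_eq_one]
      have hp : Prime (ℓ : ℤ) := Nat.prime_iff_prime_int.mp hℓ.out
      have := (Int.isCoprime_iff_gcd_eq_one).mp
        ((Prime.coprime_iff_not_dvd hp).mpr hdet).symm
      exact this
    have h2 : IsUnit ((A.det : ℤ) : ZMod (ℓ ^ 2)) := by
      obtain ⟨u, v, huv⟩ := hcop
      have h3 := congrArg (fun z : ℤ => (z : ZMod (ℓ ^ 2))) huv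
      simp only [Int.cast_add, Int.cast_mul, Int.cast_natCast, ZMod.natCast_self, mul_zero,
        add_zero, Int.cast_one] at h3
      exact IsUnit.of_mul_eq_one_right _ h3
    exact h2
  have hAbu : IsUnit Ab := (Matrix.isUnit_iff_isUnit_det Ab).mpr hdetb
  obtain ⟨u, hu⟩ := hAbu
  have hfin : IsOfFinOrder u := isOfFinOrder_of_finite u
  obtain ⟨n₀, hn₀, hpow⟩ := hfin.exists_pow_eq_one
  refine ⟨n₀, hn₀, matCong_of_map_eq_one ?_⟩
  have h1 : (A ^ n₀).map φ = Ab ^ n₀ := by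
    rw [hAb]
    exact map_pow φ.mapMatrix A n₀
  rw [h1, ← hu, ← Units.val_pow_eq_pow_val, hpow, Units.val_one]

/-- `1 + B + ⋯ + B ^ (ℓ - 1) = ℓ (1 + ℓ M)` for `B ≡ 1 mod ℓ ^ 2`. -/
theorem geom_sum_of_matCong {ℓ : ℕ} {B : Matrix (Fin d) (Fin d) ℤ} (h : MatCong ℓ B) :
    ∃ M : Matrix (Fin d) (Fin d) ℤ, ∑ i ∈ range ℓ, B ^ i = (ℓ : ℤ) • (1 + (ℓ : ℤ) • M) := by
  have hC : ∀ i : ℕ, ∃ C : Matrix (Fin d) (Fin d) ℤ, B ^ i = 1 + ((ℓ : ℤ) ^ 2) • C :=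
    fun i => h.pow i
  choose C hC using hC
  refine ⟨∑ i ∈ range ℓ, C i, ?_⟩
  have h1 : ∑ i ∈ range ℓ, B ^ i = ∑ i ∈ range ℓ, (1 + ((ℓ : ℤ) ^ 2) • C i) :=
    Finset.sum_congr rfl fun i _ => hC i
  rw [h1, Finset.sum_add_distrib, Finset.sum_const, Finset.card_range, ← Finset.smul_sum,
    smul_add, smul_smul]
  rw [← Nat.cast_smul_eq_nsmul ℤ, pow_two]

/-- `det (1 + ℓ M)` is prime to `ℓ`. -/
theorem not_dvd_det_one_add (ℓ : ℕ) [hℓ : Fact ℓ.Prime] (M : Matrix (Fin d) (Fin d) ℤ) :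
    ¬ (ℓ : ℤ) ∣ (1 + (ℓ : ℤ) • M).det := by
  intro hdvd
  set φ := Int.castRingHom (ZMod ℓ) with hφ
  have h1 : φ (1 + (ℓ : ℤ) • M).det = 0 := by
    rw [hφ, eq_intCast]
    exact (ZMod.intCast_zmod_eq_zero_iff_dvd _ _).mpr hdvd
  rw [RingHom.map_det] at h1
  have h2 : (φ.mapMatrix (1 + (ℓ : ℤ) • M)) = 1 := by
    ext i j
    simp only [RingHom.mapMatrix_apply, Matrix.map_apply, Matrix.add_apply, Matrix.smul_apply,
      smul_eq_mul, map_add, map_mul]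
    have h3 : φ (ℓ : ℤ) = 0 := by
      rw [hφ, eq_intCast]
      simp
    rw [h3, zero_mul, add_zero]
    by_cases hij : i = j
    · subst hij
      simp
    · simp [Matrix.one_apply_ne hij]
  rw [h2, Matrix.det_one] at h1
  exact one_ne_zero h1

/-- **growth of the determinant**: if `A ^ n ≡ 1 mod ℓ ^ 2` then
`det (1 - A ^ (n ℓ)) = det (1 - A ^ n) * ℓ ^ d * u` with `ℓ ∤ u`. -/
theorem det_one_sub_pow_mul {ℓ : ℕ} [hℓ : Fact ℓ.Prime] (A : Matrix (Fin d) (Fin d) ℤ) {n : ℕ}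
    (h : MatCong ℓ (A ^ n)) :
    ∃ u : ℤ, ¬ (ℓ : ℤ) ∣ u ∧
      (1 - A ^ (n * ℓ)).det = (1 - A ^ n).det * ((ℓ : ℤ) ^ d * u) := by
  obtain ⟨M, hM⟩ := geom_sum_of_matCong h
  refine ⟨(1 + (ℓ : ℤ) • M).det, not_dvd_det_one_add ℓ M, ?_⟩
  have h1 : (1 - A ^ (n * ℓ)) = (1 - A ^ n) * ∑ i ∈ range ℓ, (A ^ n) ^ i := by
    rw [pow_mul]
    exact (mul_neg_geom_sum (A ^ n) ℓ).symm
  rw [h1, Matrix.det_mul, hM, Matrix.det_smul, Fintype.card_fin]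

/-- **D7**: if `h m = |det (1 - A ^ m)|` is nonzero for `m > 0` and `ℓ ∤ det A`, then there is
`n₀ > 0` such that `v_ℓ (h (n ℓ)) = v_ℓ (h n) + d` for every positive multiple `n` of `n₀`. -/
theorem exists_growth (A : Matrix (Fin d) (Fin d) ℤ) (ℓ : ℕ) [hℓ : Fact ℓ.Prime]
    (hdet : ¬ (ℓ : ℤ) ∣ A.det) (h : ℕ → ℕ)
    (hh : ∀ m, 0 < m → h m = (1 - A ^ m).det.natAbs) (hne : ∀ m, 0 < m → h m ≠ 0) :
    ∃ n₀ : ℕ, 0 < n₀ ∧ ∀ n, 0 < n → n₀ ∣ n →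
      (h (n * ℓ)).factorization ℓ = (h n).factorization ℓ + d := by
  obtain ⟨n₀, hn₀, hcong⟩ := exists_pow_matCong A ℓ hdet
  refine ⟨n₀, hn₀, fun n hn hdvd => ?_⟩
  obtain ⟨c, rfl⟩ := hdvd
  have hcong' : MatCong ℓ (A ^ (n₀ * c)) := by
    rw [pow_mul]
    exact hcong.pow c
  obtain ⟨u, hu, hdetmul⟩ := det_one_sub_pow_mul A hcong'
  have hnℓ : 0 < n₀ * c * ℓ := Nat.mul_pos hn hℓ.out.pos
  have e1 := hh (n₀ * c * ℓ) hnℓ
  have e2 := hh (n₀ * c) hn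
  have hne1 := hne (n₀ * c) hn
  have hu0 : u.natAbs ≠ 0 := by
    intro h0
    rw [Int.natAbs_eq_zero] at h0
    rw [h0] at hu
    exact hu (dvd_zero _)
  have huℓ : ¬ ℓ ∣ u.natAbs := by
    intro hd
    apply hu
    exact Int.natCast_dvd.mpr hd
  rw [e1, hdetmul, Int.natAbs_mul, Int.natAbs_mul, Int.natAbs_pow, Int.natAbs_natCast, ← e2,
    Nat.factorization_mul hne1 (Nat.mul_ne_zero (pow_ne_zero d hℓ.out.ne_zero) hu0),
    Nat.factorization_mul (pow_ne_zero d hℓ.out.ne_zero) hu0]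
  simp only [Finsupp.add_apply]
  rw [Nat.factorization_pow, Finsupp.smul_apply, hℓ.out.factorization_self,
    Nat.factorization_eq_zero_of_not_dvd huℓ]
  simp

/-- **D7**, in the shape of the field `growth` of the abstract counting lemma (D8). -/
theorem exists_growth_padicValNat (A : Matrix (Fin d) (Fin d) ℤ) (ℓ : ℕ) [hℓ : Fact ℓ.Prime]
    (hdet : ¬ (ℓ : ℤ) ∣ A.det) (h : ℕ → ℕ)
    (hh : ∀ m, 0 < m → h m = (1 - A ^ m).det.natAbs) (hne : ∀ m, 0 < m → h m ≠ 0) :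
    ∃ n₀ : ℕ, 0 < n₀ ∧ ∀ n, 0 < n → n₀ ∣ n →
      padicValNat ℓ (h (n * ℓ)) = padicValNat ℓ (h n) + d := by
  obtain ⟨n₀, hn₀, hg⟩ := exists_growth A ℓ hdet h hh hne
  refine ⟨n₀, hn₀, fun n hn hdvd => ?_⟩
  have := hg n hn hdvd
  rwa [Nat.factorization_def _ hℓ.out, Nat.factorization_def _ hℓ.out] at this

end Fermat.Agent.S27
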