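import Fermat.Agent.S27.Top
import Fermat.Agent.S27.Model.Bridge
import Fermat.Agent.S27.Red.UpperFinal

set_option autoImplicit false

/-!
# S27: the statement, from the lower bound (L)  (helper40, architect)

Blocks A (`Model/*`), B (`ValChoice`), C (`Red/*`, `GR/*`) and D (`Zeta/*`) give the upper bound
`torsionUpper_final : TorsionUpper`; together with `Index.lean` the statement S27 follows from the
lower bound `TorsionLower` (block E, `Lift/*`) alone.
-/

open AlgebraicCurve

namespace Fermat.Agent.S27

universe u v

/-- S27 for curves in the sense of the prelude, from the lower bound (L). -/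
theorem card_torsion_of_lower (hL : TorsionLower.{u, v})
    (K : Type u) (F : Type v) [Field K] [Field F] [Algebra K F] [IsAlgClosed K] [CharZero K]
    [IsCurveOver K F] [Algebra.EssFiniteType K F]
    (ℓ : ℕ) (hℓ : ℓ.Prime) (k : ℕ) :
    Nat.card (Pic0.torsion K F (ℓ ^ k)) = ℓ ^ (2 * genusFF K F * k) :=
  card_torsion_of_bounds torsionUpper_final hL K F (isRRField K F) ℓ hℓ k

end Fermat.Agent.S27
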